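/-
S44, node F, sub-node FClosed (owner helper102): `S2bar k M` is closed in `k[[q]]`, and the truncated
spans `S2trunc k M m` approximate it.
-/
import Fermat.Agent.S44.F.Stab

set_option autoImplicit false

open ModularFormClass CongruenceSubgroup

namespace Fermat.Agent.S44.F

open Fermat.Agent.S49

section Abstract

variable {k : Type*} [Field k]

/-- the elements of `V` whose coefficients of index `≤ m` vanish -/
def truncKer (V : Submodule k (PowerSeries k)) (m : ℕ) : Submodule k V where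
  carrier := {v | ∀ n ≤ m, PowerSeries.coeff n (v : PowerSeries k) = 0}
  add_mem' := fun {a b} ha hb n hn => by
    rw [Submodule.coe_add, map_add, ha n hn, hb n hn, add_zero]
  zero_mem' := fun n _ => by simp
  smul_mem' := fun c a ha n hn => by
    rw [Submodule.coe_smul, PowerSeries.coeff_smul, ha n hn, smul_zero]

theorem exists_trunc_injective (V : Submodule k (PowerSeries k)) (hV : V.FG) :
    ∃ m₀ : ℕ, ∀ v ∈ V, (∀ n ≤ m₀, PowerSeries.coeff n v = 0) → v = 0 := by
  have : Module.Finite k V := Module.Finite.iff_fg.mpr hV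
  have : IsArtinian k V := inferInstance
  let W : ℕ →o (Submodule k V)ᵒᵈ :=
    { toFun := fun m => OrderDual.toDual (truncKer V m)
      monotone' := fun a b hab => by
        show truncKer V b ≤ truncKer V a
        intro v hv n hn
        exact hv n (hn.trans hab) }
  obtain ⟨n₀, hn₀⟩ := IsArtinian.monotone_stabilizes W
  refine ⟨n₀, fun v hv h => PowerSeries.ext fun n => ?_⟩
  rw [map_zero]
  have h1 : (⟨v, hv⟩ : V) ∈ truncKer V n₀ := h
  have h2 : truncKer V n₀ = truncKer V (max n₀ n) :=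
    OrderDual.toDual.injective (hn₀ (max n₀ n) (le_max_left _ _))
  rw [h2] at h1
  exact h1 n (le_max_right _ _)

end Abstract

variable {k : Type*} [Field k] {M : ℕ}

/-- `ψ` is the reduction of the integral form `f` -/
def RedP (k : Type*) [Field k] {M : ℕ} (f : CuspForm (Gamma0 M) 2) (ψ : PowerSeries k) : Prop :=
  ∃ a : ℕ → ℤ, (∀ n, qCoeff ⇑f n = (a n : ℂ)) ∧ ψ = redSeq k a

theorem RedP.unique {f : CuspForm (Gamma0 M) 2} {ψ ψ' : PowerSeries k} (h : RedP k f ψ)
    (h' : RedP k f ψ') : ψ = ψ' := by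
  obtain ⟨a, ha, rfl⟩ := h
  obtain ⟨a', ha', rfl⟩ := h'
  have : a = a' := by
    funext n
    have := (ha n).symm.trans (ha' n)
    exact_mod_cast this
  rw [this]

theorem RedP.add {f g : CuspForm (Gamma0 M) 2} {ψ χ : PowerSeries k} (h : RedP k f ψ)
    (h' : RedP k g χ) : RedP k (f + g) (ψ + χ) := by
  obtain ⟨a, ha, rfl⟩ := h
  obtain ⟨b, hb, rfl⟩ := h'
  refine ⟨fun n => a n + b n, fun n => ?_, ?_⟩
  · rw [qCoeff_add, ha, hb]; push_cast; ring
  · ext n
    simp

theorem RedP.zsmul (c : ℤ) {f : CuspForm (Gamma0 M) 2} {ψ : PowerSeries k} (h : RedP k f ψ) :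
    RedP k (c • f) ((c : k) • ψ) := by
  obtain ⟨a, ha, rfl⟩ := h
  refine ⟨fun n => c * a n, fun n => ?_, ?_⟩
  · rw [qCoeff_zsmul, ha]; push_cast; ring
  · ext n
    simp

theorem RedP.zero : RedP k (0 : CuspForm (Gamma0 M) 2) 0 :=
  ⟨fun _ => 0, fun n => by rw [qCoeff_zero_form]; simp, by ext n; simp⟩

theorem exists_redP {f : CuspForm (Gamma0 M) 2} (hf : f ∈ CuspForm.intLattice M 2) :
    ∃ ψ : PowerSeries k, RedP k f ψ := by
  have h := (mem_intLattice_iff f).1 hf
  choose a ha using h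
  exact ⟨redSeq k a, a, ha, rfl⟩

/-- `S2bar` lies in a finitely generated subspace -/
theorem exists_fg_ge (k : Type*) [Field k] (M : ℕ) [NeZero M] :
    ∃ V : Submodule k (PowerSeries k), V.FG ∧ S2bar k M ≤ V := by
  classical
  obtain ⟨S, hS⟩ := CuspForm.intLattice_fg M 2
  have hSmem : ∀ f ∈ S, f ∈ CuspForm.intLattice M 2 := fun f hf => by
    rw [← hS]; exact Submodule.subset_span hf
  have hex : ∀ f : CuspForm (Gamma0 M) 2, ∃ ψ : PowerSeries k, f ∈ S → RedP k f ψ := fun f => by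
    by_cases hf : f ∈ S
    · obtain ⟨ψ, hψ⟩ := exists_redP (k := k) (hSmem f hf)
      exact ⟨ψ, fun _ => hψ⟩
    · exact ⟨0, fun h => absurd h hf⟩
  choose ρ hρ using hex
  refine ⟨Submodule.span k ((S.image ρ : Finset (PowerSeries k)) : Set (PowerSeries k)),
    ⟨S.image ρ, rfl⟩, ?_⟩
  have key : ∀ f ∈ Submodule.span ℤ (S : Set (CuspForm (Gamma0 M) 2)),
      ∃ ψ : PowerSeries k, RedP k f ψ ∧
        ψ ∈ Submodule.span k ((S.image ρ : Finset (PowerSeries k)) : Set (PowerSeries k)) := by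
    intro f hf
    induction hf using Submodule.span_induction with
    | mem x hx =>
      exact ⟨ρ x, hρ x hx, Submodule.subset_span (by
        rw [Finset.coe_image]; exact ⟨x, hx, rfl⟩)⟩
    | zero => exact ⟨0, RedP.zero, Submodule.zero_mem _⟩
    | add x y _ _ hx hy =>
      obtain ⟨ψ, h1, h2⟩ := hx
      obtain ⟨χ, h3, h4⟩ := hy
      exact ⟨ψ + χ, h1.add h3, Submodule.add_mem _ h2 h4⟩
    | smul c x _ hx =>
      obtain ⟨ψ, h1, h2⟩ := hx
      exact ⟨(c : k) • ψ, h1.zsmul c, Submodule.smul_mem _ _ h2⟩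
  unfold S2bar
  rw [Submodule.span_le]
  rintro _ ⟨a, ⟨f, hf⟩, rfl⟩
  have hfL : f ∈ Submodule.span ℤ (S : Set (CuspForm (Gamma0 M) 2)) := by
    rw [hS, mem_intLattice_iff]
    exact fun n => ⟨a n, hf n⟩
  obtain ⟨ψ, h1, h2⟩ := key f hfL
  have : redSeq k a = ψ := RedP.unique ⟨a, hf, rfl⟩ h1
  rw [SetLike.mem_coe, this]
  exact h2

/-- above the bound of `FStab` the truncated span is approximated by `S2bar` -/
theorem exists_bar_of_trunc [NeZero M] {D : ℕ}
    (hD : ∀ (f : CuspForm (Gamma0 M) 2) (R : AddSubgroup ℂ),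
      (∀ n ≤ D, qCoeff f n ∈ R) → ∀ n, qCoeff f n ∈ R)
    {m : ℕ} (hm : D ≤ m) {ψ : PowerSeries k} (hψ : ψ ∈ S2trunc k M m) :
    ∃ ψ' ∈ S2bar k M, ∀ n ≤ m, PowerSeries.coeff n ψ = PowerSeries.coeff n ψ' := by
  induction hψ using Submodule.span_induction with
  | mem x hx =>
    obtain ⟨a, ⟨f, hf⟩, rfl⟩ := hx
    have hall := hD f (Int.castAddHom ℂ).range (fun n hn => ⟨a n, (hf n (hn.trans hm)).symm⟩)
    choose a' ha' using hall
    refine ⟨redSeq k a', Submodule.subset_span ⟨a', ⟨f, fun n => (ha' n).symm⟩, rfl⟩,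
      fun n hn => ?_⟩
    have : a n = a' n := by
      have h1 := hf n hn
      have h2 := ha' n
      simp only [Int.coe_castAddHom] at h2
      rw [← h2] at h1
      exact_mod_cast h1.symm
    rw [coeff_redSeq, coeff_redSeq, this]
  | zero => exact ⟨0, Submodule.zero_mem _, fun n _ => rfl⟩
  | add x y _ _ hx hy =>
    obtain ⟨x', h1, h2⟩ := hx
    obtain ⟨y', h3, h4⟩ := hy
    exact ⟨x' + y', Submodule.add_mem _ h1 h3, fun n hn => by
      rw [map_add, map_add, h2 n hn, h4 n hn]⟩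
  | smul c x _ hx =>
    obtain ⟨x', h1, h2⟩ := hx
    exact ⟨c • x', Submodule.smul_mem _ c h1, fun n hn => by
      rw [PowerSeries.coeff_smul, PowerSeries.coeff_smul, h2 n hn]⟩

/-- **FClosed.** -/
theorem fClosed : FClosed := by
  intro k _ M _ φ h
  obtain ⟨D, hD⟩ := fStab M
  obtain ⟨V, hV, hle⟩ := exists_fg_ge k M
  obtain ⟨m₀, hm₀⟩ := exists_trunc_injective V hV
  have happ : ∀ m : ℕ, ∃ ψ' ∈ S2bar k M, ∀ n ≤ max m m₀,
      PowerSeries.coeff n φ = PowerSeries.coeff n ψ' := by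
    intro m
    obtain ⟨ψ, hψ, hφψ⟩ := h (max (max m m₀) D)
    obtain ⟨ψ', hψ', hψψ'⟩ := exists_bar_of_trunc hD (le_max_right _ _) hψ
    exact ⟨ψ', hψ', fun n hn => by
      rw [hφψ n (hn.trans (le_max_left _ _)), hψψ' n (hn.trans (le_max_left _ _))]⟩
  obtain ⟨ψ₀, hψ₀, h₀⟩ := happ 0
  have : φ = ψ₀ := by
    ext m
    obtain ⟨ψ', hψ', h'⟩ := happ m
    have heq : ψ' - ψ₀ = 0 := by
      refine hm₀ _ (Submodule.sub_mem _ (hle hψ') (hle hψ₀)) fun n hn => ?_
      rw [map_sub, ← h' n (hn.trans (le_max_right _ _)), ← h₀ n (hn.trans (le_max_right _ _)),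
        sub_self]
    rw [h' m (le_max_left _ _), sub_eq_zero.1 heq]
  rw [this]
  exact hψ₀

end Fermat.Agent.S44.F
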